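import Mathlib

/-!
# Numbers constructible by ruler and compass, and the Gauss–Wantzel theorem

A real number is constructible if it is obtained from the rational numbers by field operations and
square roots. A complex number with constructible coordinates generates a field of two-power
degree, and conversely every number in a Galois extension of two-power degree has constructible
coordinates.
-/

set_option autoImplicit false
set_option linter.style.haveILetI false

noncomputable section

namespace FA.LemniscateDivision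

open Module IntermediateField

/-- Real numbers obtained from `ℚ` by field operations and square roots. -/
inductive IsConstructible : ℝ → Prop
  | rat (q : ℚ) : IsConstructible q
  | add {x y : ℝ} : IsConstructible x → IsConstructible y → IsConstructible (x + y)
  | neg {x : ℝ} : IsConstructible x → IsConstructible (-x)
  | mul {x y : ℝ} : IsConstructible x → IsConstructible y → IsConstructible (x * y)
  | inv {x : ℝ} : IsConstructible x → IsConstructible x⁻¹
  | sqrt {x : ℝ} : IsConstructible x → IsConstructible (Real.sqrt x)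

theorem IsConstructible.sub {x y : ℝ} (hx : IsConstructible x) (hy : IsConstructible y) :
    IsConstructible (x - y) := by
  simpa [sub_eq_add_neg] using hx.add hy.neg

theorem IsConstructible.div {x y : ℝ} (hx : IsConstructible x) (hy : IsConstructible y) :
    IsConstructible (x / y) := by
  simpa [div_eq_mul_inv] using hx.mul hy.inv

theorem IsConstructible.pow {x : ℝ} (hx : IsConstructible x) (k : ℕ) :
    IsConstructible (x ^ k) := by
  induction k with
  | zero => simpa using IsConstructible.rat 1
  | succ k ih => simpa [pow_succ] using ih.mul hx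

theorem IsConstructible.nat (k : ℕ) : IsConstructible k := by
  simpa using IsConstructible.rat k

theorem IsConstructible.int (k : ℤ) : IsConstructible k := by
  simpa using IsConstructible.rat k

theorem IsConstructible.of_sq {x : ℝ} (hx : IsConstructible (x ^ 2)) : IsConstructible x := by
  have h := hx.sqrt
  rw [Real.sqrt_sq_eq_abs] at h
  rcases abs_choice x with e | e <;> rw [e] at h
  · exact h
  · simpa using h.neg

/-- Complex numbers with constructible coordinates. -/
def constructibleField : IntermediateField ℚ ℂ where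
  carrier := {z | IsConstructible z.re ∧ IsConstructible z.im}
  mul_mem' {z w} hz hw := by
    refine ⟨?_, ?_⟩
    · rw [Complex.mul_re]; exact (hz.1.mul hw.1).sub (hz.2.mul hw.2)
    · rw [Complex.mul_im]; exact (hz.1.mul hw.2).add (hz.2.mul hw.1)
  add_mem' {z w} hz hw := ⟨hz.1.add hw.1, hz.2.add hw.2⟩
  algebraMap_mem' q := by
    show IsConstructible ((algebraMap ℚ ℂ q).re) ∧ IsConstructible ((algebraMap ℚ ℂ q).im)
    rw [eq_ratCast]
    exact ⟨by simpa using IsConstructible.rat q, by simpa using IsConstructible.rat 0⟩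
  inv_mem' z hz := by
    show IsConstructible (z⁻¹).re ∧ IsConstructible (z⁻¹).im
    rw [Complex.inv_re, Complex.inv_im, Complex.normSq_apply]
    exact ⟨hz.1.div ((hz.1.mul hz.1).add (hz.2.mul hz.2)),
      hz.2.neg.div ((hz.1.mul hz.1).add (hz.2.mul hz.2))⟩

theorem mem_constructibleField {z : ℂ} :
    z ∈ constructibleField ↔ IsConstructible z.re ∧ IsConstructible z.im := Iff.rfl

theorem ofReal_mem_constructibleField {x : ℝ} :
    (x : ℂ) ∈ constructibleField ↔ IsConstructible x := by
  simp only [mem_constructibleField, Complex.ofReal_re, Complex.ofReal_im]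
  exact and_iff_left (by simpa using IsConstructible.rat 0)

theorem I_mem_constructibleField : Complex.I ∈ constructibleField :=
  ⟨by simpa using IsConstructible.rat 0, by simpa using IsConstructible.rat 1⟩

/-- The constructible numbers are closed under square roots. -/
theorem mem_constructibleField_of_sq {w : ℂ} (h : w ^ 2 ∈ constructibleField) :
    w ∈ constructibleField := by
  obtain ⟨hr, hi⟩ := mem_constructibleField.1 h
  have e1 : (w ^ 2).re = w.re ^ 2 - w.im ^ 2 := by simp [sq]
  have hn : IsConstructible (w.re ^ 2 + w.im ^ 2) := by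
    refine IsConstructible.of_sq ?_
    have := (hr.pow 2).add (hi.pow 2)
    convert this using 1
    simp [sq]
    ring
  rw [e1] at hr
  refine ⟨IsConstructible.of_sq ?_, IsConstructible.of_sq ?_⟩
  · have := (hn.add hr).div (IsConstructible.nat 2)
    convert this using 1
    ring
  · have := (hn.sub hr).div (IsConstructible.nat 2)
    convert this using 1
    ring

/-- The field `K` extends to one of two-power degree containing `z`, whatever `K`. -/
def TwoTower (z : ℂ) : Prop :=
  ∀ K : IntermediateField ℚ ℂ, (∃ k, finrank ℚ K = 2 ^ k) →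
    ∃ K' : IntermediateField ℚ ℂ, K ≤ K' ∧ (∃ k, finrank ℚ K' = 2 ^ k) ∧ z ∈ K'

theorem twoTower_of_mem {z : ℂ} (h : ∀ K : IntermediateField ℚ ℂ, z ∈ K) : TwoTower z :=
  fun K hK => ⟨K, le_rfl, hK, h K⟩

theorem TwoTower.binop {z w u : ℂ} (hz : TwoTower z) (hw : TwoTower w)
    (h : ∀ K : IntermediateField ℚ ℂ, z ∈ K → w ∈ K → u ∈ K) : TwoTower u := fun K hK => by
  obtain ⟨K₁, h1, h2, h3⟩ := hz K hK
  obtain ⟨K₂, h4, h5, h6⟩ := hw K₁ h2
  exact ⟨K₂, h1.trans h4, h5, h K₂ (h4 h3) h6⟩

theorem TwoTower.of_sq {w : ℂ} (h : TwoTower (w ^ 2)) : TwoTower w := fun K hK => by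
  obtain ⟨K₁, h1, ⟨k, hk⟩, h3⟩ := h K hK
  by_cases hw : w ∈ K₁
  · exact ⟨K₁, h1, ⟨k, hk⟩, hw⟩
  have : FiniteDimensional ℚ K₁ := Module.finite_of_finrank_pos (by rw [hk]; positivity)
  let p : Polynomial K₁ := Polynomial.X ^ 2 - Polynomial.C ⟨w ^ 2, h3⟩
  have hp : p.Monic := Polynomial.monic_X_pow_sub_C _ two_ne_zero
  have hroot : Polynomial.aeval w p = 0 := by simp [p]
  have hint : IsIntegral K₁ w := ⟨p, hp, hroot⟩
  have hdeg : (minpoly K₁ w).natDegree = 2 := by
    refine le_antisymm ?_ ((minpoly.two_le_natDegree_iff hint).2 fun ⟨a, ha⟩ => hw (ha ▸ a.2))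
    have := Polynomial.natDegree_le_of_dvd (minpoly.dvd K₁ w hroot) hp.ne_zero
    simpa [p, Polynomial.natDegree_X_pow_sub_C] using this
  refine ⟨(K₁⟮w⟯).restrictScalars ℚ, h1.trans fun x hx => ?_, ⟨k + 1, ?_⟩,
    mem_adjoin_simple_self K₁ w⟩
  · exact (K₁⟮w⟯).algebraMap_mem (⟨x, hx⟩ : K₁)
  · show finrank ℚ K₁⟮w⟯ = 2 ^ (k + 1)
    rw [← Module.finrank_mul_finrank ℚ K₁ K₁⟮w⟯, hk, IntermediateField.adjoin.finrank hint, hdeg,
      pow_succ]

theorem twoTower_ofReal {x : ℝ} (h : IsConstructible x) : TwoTower (x : ℂ) := by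
  induction h with
  | rat q =>
    refine twoTower_of_mem fun K => ?_
    rw [Complex.ofReal_ratCast]
    exact SubfieldClass.ratCast_mem K q
  | add _ _ h1 h2 =>
    refine h1.binop h2 fun K a b => ?_
    rw [Complex.ofReal_add]
    exact add_mem a b
  | neg _ h1 =>
    refine h1.binop h1 fun K a _ => ?_
    rw [Complex.ofReal_neg]
    exact neg_mem a
  | mul _ _ h1 h2 =>
    refine h1.binop h2 fun K a b => ?_
    rw [Complex.ofReal_mul]
    exact mul_mem a b
  | inv _ h1 =>
    refine h1.binop h1 fun K a _ => ?_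
    rw [Complex.ofReal_inv]
    exact inv_mem a
  | @sqrt y _ h1 =>
    rcases le_total 0 y with hy | hy
    · refine TwoTower.of_sq ?_
      rwa [← Complex.ofReal_pow, Real.sq_sqrt hy]
    · exact twoTower_of_mem fun K => by
        rw [Real.sqrt_eq_zero'.2 hy, Complex.ofReal_zero]; exact zero_mem K

/-- **The degree of a constructible number is a power of two.** -/
theorem natDegree_minpoly_dvd_two_pow {z : ℂ} (h : z ∈ constructibleField) :
    ∃ k, (minpoly ℚ z).natDegree ∣ 2 ^ k := by
  have hI : TwoTower Complex.I := TwoTower.of_sq (twoTower_of_mem fun K => by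
    rw [Complex.I_sq]; exact neg_mem (one_mem K))
  have h2 : TwoTower ((z.im : ℂ) * Complex.I) :=
    (twoTower_ofReal h.2).binop hI fun K a b => mul_mem a b
  have hz : TwoTower z := (twoTower_ofReal h.1).binop h2 fun K a b => by
    rw [← Complex.re_add_im z]; exact add_mem a b
  obtain ⟨K, -, ⟨k, hk⟩, hzK⟩ := hz ⊥ ⟨0, by simp⟩
  have : FiniteDimensional ℚ K := Module.finite_of_finrank_pos (by rw [hk]; positivity)
  refine ⟨k, hk ▸ ?_⟩
  have e : minpoly ℚ z = minpoly ℚ (⟨z, hzK⟩ : K) :=
    minpoly.algebraMap_eq (B := K) (B' := ℂ) (algebraMap K ℂ).injective ⟨z, hzK⟩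
  rw [e]
  exact minpoly.degree_dvd (IsIntegral.of_finite ℚ _)

/-- **A Galois extension of two-power degree consists of constructible numbers.** -/
theorem mem_constructibleField_of_isPGroup (F : IntermediateField ℚ ℂ) [FiniteDimensional ℚ F]
    [IsGalois ℚ F] (h : IsPGroup 2 (F ≃ₐ[ℚ] F)) {z : ℂ} (hz : z ∈ F) :
    z ∈ constructibleField := by
  classical
  haveI : Fact (Nat.Prime 2) := ⟨Nat.prime_two⟩
  obtain ⟨m, hm⟩ := IsPGroup.iff_card.1 h
  have key : ∀ i j, j + i = m → ∀ H : Subgroup (F ≃ₐ[ℚ] F), Nat.card H = 2 ^ j →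
      ∀ x ∈ IntermediateField.fixedField H, (x : ℂ) ∈ constructibleField := by
    intro i
    induction i with
    | zero =>
      intro j hj H hH x hx
      have hH' : H = ⊤ := Subgroup.eq_top_of_card_eq H (by rw [hH, hm, ← hj, add_zero])
      rw [hH', IsGalois.fixedField_top] at hx
      obtain ⟨q, rfl⟩ := IntermediateField.mem_bot.1 hx
      exact constructibleField.algebraMap_mem q
    | succ i ih =>
      intro j hj H hH x hx
      obtain ⟨K, hK, hHK⟩ := Sylow.exists_subgroup_card_pow_succ
        (hm ▸ pow_dvd_pow 2 (by omega : j + 1 ≤ m)) hH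
      have hidx : (H.subgroupOf K).index = 2 := by
        have h1 := Subgroup.card_mul_index (H.subgroupOf K)
        rw [Nat.card_congr (Subgroup.subgroupOfEquivOfLe hHK).toEquiv, hH, hK, pow_succ] at h1
        exact mul_left_cancel₀ (pow_ne_zero j two_ne_zero) h1
      obtain ⟨g, hgK, hgH⟩ : ∃ g ∈ K, g ∉ H := by
        by_contra hc
        push Not at hc
        have := congrArg (fun S : Subgroup (F ≃ₐ[ℚ] F) => Nat.card S) (le_antisymm hHK hc)
        simp only [hH, hK, pow_succ] at this
        have : 0 < 2 ^ j := by positivity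
        omega
      have hnorm := (Subgroup.normal_of_index_eq_two hidx).conj_mem
      rw [IntermediateField.mem_fixedField_iff] at hx
      have hconj : ∀ f ∈ H, f (g x) = g x := fun f hf => by
        have h1 := hnorm ⟨f, hHK hf⟩ hf ⟨g⁻¹, K.inv_mem hgK⟩
        simp only [Subgroup.mem_subgroupOf, Subgroup.coe_mul, inv_inv,
          InvMemClass.coe_inv] at h1
        have h2 := hx _ h1
        have h3 := congrArg g h2
        rwa [← AlgEquiv.mul_apply, mul_assoc g⁻¹ f g, mul_inv_cancel_left, AlgEquiv.mul_apply]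
          at h3
      have hgg : g (g x) = x := by
        have h1 := Subgroup.mul_self_mem_of_index_two hidx ⟨g, hgK⟩
        exact hx _ h1
      have hfix : ∀ y, (∀ f ∈ H, f y = y) → g y = y → y ∈ IntermediateField.fixedField K := by
        intro y hy hgy
        rw [IntermediateField.mem_fixedField_iff]
        intro f hf
        by_cases hfH : f ∈ H
        · exact hy f hfH
        · have h1 : (⟨g, hgK⟩⁻¹ * ⟨f, hf⟩ : K) ∈ H.subgroupOf K := by
            rw [Subgroup.mul_mem_iff_of_index_two hidx, inv_mem_iff]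
            simp [Subgroup.mem_subgroupOf, hgH, hfH]
          rw [Subgroup.mem_subgroupOf] at h1
          have h2 := congrArg g (hy _ h1)
          rw [hgy, ← AlgEquiv.mul_apply] at h2
          simpa using h2
      have hsum := ih (j + 1) (by omega) K hK (x + g x) (hfix _
        (fun f hf => by rw [map_add, hx f hf, hconj f hf]) (by rw [map_add, hgg, add_comm]))
      have hprod := ih (j + 1) (by omega) K hK (x * g x) (hfix _
        (fun f hf => by rw [map_mul, hx f hf, hconj f hf]) (by rw [map_mul, hgg, mul_comm]))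
      push_cast at hsum hprod
      have h4 : (x : ℂ) - (g x : ℂ) ∈ constructibleField :=
        mem_constructibleField_of_sq (by
          have := sub_mem (mul_mem hsum hsum)
            (mul_mem (_root_.natCast_mem constructibleField 4) hprod)
          convert this using 1
          push_cast
          ring)
      have h5 := div_mem (add_mem hsum h4) (_root_.natCast_mem constructibleField 2)
      convert h5 using 1
      push_cast
      ring
  refine key m 0 (zero_add m) ⊥ (by simp) ⟨z, hz⟩ ?_
  simp

/-- `n` is a power of two times a product of distinct Fermat primes. -/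
def IsFermatProduct (n : ℕ) : Prop :=
  ∃ k : ℕ, ∃ S : Finset ℕ, (∀ p ∈ S, p.Prime ∧ ∃ m, p = 2 ^ 2 ^ m + 1) ∧ n = 2 ^ k * ∏ p ∈ S, p

theorem isFermatProduct_iff {n : ℕ} : IsFermatProduct n ↔ ∃ k, n.totient = 2 ^ k := by
  constructor
  · rintro ⟨k, S, hS, rfl⟩
    induction S using Finset.induction with
    | empty =>
      rcases k with _ | k
      · exact ⟨0, by simp⟩
      · refine ⟨k, ?_⟩
        rw [Finset.prod_empty, mul_one, Nat.totient_prime_pow Nat.prime_two k.succ_pos]
        simp
    | insert p S hp ih =>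
      obtain ⟨hpp, m, hm⟩ := hS p (Finset.mem_insert_self p S)
      obtain ⟨j, hj⟩ := ih fun q hq => hS q (Finset.mem_insert_of_mem hq)
      refine ⟨2 ^ m + j, ?_⟩
      have hodd : Nat.Coprime p 2 := by
        rw [hm]
        simp [Nat.coprime_two_right, parity_simps]
      have hco : Nat.Coprime p (2 ^ k * ∏ q ∈ S, q) :=
        (hodd.pow_right k).mul_right (Nat.Coprime.prod_right fun q hq =>
          (Nat.coprime_primes hpp (hS q (Finset.mem_insert_of_mem hq)).1).2 (ne_of_mem_of_not_mem hq hp).symm)
      rw [Finset.prod_insert hp, ← mul_assoc, mul_comm (2 ^ k) p, mul_assoc,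
        Nat.totient_mul hco, Nat.totient_prime hpp, hj, pow_add, hm, Nat.add_sub_cancel]
  · induction n using Nat.recOnPrimeCoprime with
    | zero =>
      rintro ⟨k, hk⟩
      rw [Nat.totient_zero] at hk
      exact absurd hk.symm (pow_ne_zero k two_ne_zero)
    | prime_pow p v hp =>
      rintro ⟨k, hk⟩
      rcases hp.eq_two_or_odd' with rfl | hodd
      · exact ⟨v, ∅, by simp, by simp⟩
      rcases v with _ | v
      · exact ⟨0, ∅, by simp, by simp⟩
      rw [Nat.totient_prime_pow hp v.succ_pos, Nat.succ_sub_one] at hk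
      rcases v with _ | v
      · rw [pow_zero, one_mul] at hk
        have hk0 : k ≠ 0 := by
          rintro rfl
          have : p = 2 := by have := hp.two_le; simp at hk; omega
          subst this
          exact absurd hodd (by decide)
        have hp' : p = 2 ^ k + 1 := by have := hp.two_le; omega
        obtain ⟨m, rfl⟩ := Nat.pow_of_pow_add_prime one_lt_two hk0 (hp' ▸ hp)
        exact ⟨0, {p}, by simpa using ⟨hp, m, hp'⟩, by simp⟩
      · have : p ∣ 2 ^ k := hk ▸ dvd_mul_of_dvd_left (dvd_pow_self p v.succ_ne_zero) _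
        have : p = 2 := (Nat.prime_dvd_prime_iff_eq hp Nat.prime_two).1 (hp.dvd_of_dvd_pow this)
        subst this
        exact absurd hodd (by decide)
    | coprime a b ha hb hab iha ihb =>
      rintro ⟨k, hk⟩
      rw [Nat.totient_mul hab] at hk
      obtain ⟨i, -, hi⟩ := (Nat.dvd_prime_pow Nat.prime_two).1 (hk ▸ dvd_mul_right a.totient _)
      obtain ⟨j, -, hj⟩ := (Nat.dvd_prime_pow Nat.prime_two).1 (hk ▸ dvd_mul_left b.totient _)
      obtain ⟨k₁, S, hS, rfl⟩ := iha ⟨i, hi⟩
      obtain ⟨k₂, T, hT, rfl⟩ := ihb ⟨j, hj⟩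
      refine ⟨k₁ + k₂, S ∪ T, fun p hp => (Finset.mem_union.1 hp).elim (hS p) (hT p), ?_⟩
      have hd : Disjoint S T := Finset.disjoint_left.2 fun p hp hp' =>
        (hS p hp).1.ne_one (Nat.eq_one_of_dvd_coprimes hab
          (dvd_mul_of_dvd_right (Finset.dvd_prod_of_mem _ hp) _)
          (dvd_mul_of_dvd_right (Finset.dvd_prod_of_mem _ hp') _))
      rw [Finset.prod_union hd, pow_add]
      ring

/-- A primitive `n`-th root of unity is constructible exactly for Fermat products. -/
theorem primitiveRoot_mem_iff {n : ℕ} (hn : 0 < n) {ζ : ℂ} (hζ : IsPrimitiveRoot ζ n) :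
    ζ ∈ constructibleField ↔ IsFermatProduct n := by
  rw [isFermatProduct_iff]
  constructor
  · intro h
    obtain ⟨k, hk⟩ := natDegree_minpoly_dvd_two_pow h
    rw [← Polynomial.cyclotomic_eq_minpoly_rat hζ hn, Polynomial.natDegree_cyclotomic,
      Nat.dvd_prime_pow Nat.prime_two] at hk
    obtain ⟨i, -, hi⟩ := hk
    exact ⟨i, hi⟩
  · rintro ⟨k, hk⟩
    haveI : NeZero n := ⟨hn.ne'⟩
    haveI : IsCyclotomicExtension {n} ℚ ℚ⟮ζ⟯ :=
      (IntermediateField.isCyclotomicExtension_singleton_iff_eq_adjoin n ℚ ℂ ℚ⟮ζ⟯ hζ).2 rfl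
    haveI : FiniteDimensional ℚ ℚ⟮ζ⟯ := IsCyclotomicExtension.finiteDimensional {n} ℚ ℚ⟮ζ⟯
    haveI : IsGalois ℚ ℚ⟮ζ⟯ := IsCyclotomicExtension.isGalois {n} ℚ ℚ⟮ζ⟯
    refine mem_constructibleField_of_isPGroup _ (IsPGroup.of_card (n := k) ?_)
      (mem_adjoin_simple_self ℚ ζ)
    rw [IsGalois.card_aut_eq_finrank, IsCyclotomicExtension.finrank (n := n) ℚ⟮ζ⟯
      (Polynomial.cyclotomic.irreducible_rat hn), hk]

/-- **Gauss–Wantzel**: the regular `n`-gon is constructible exactly if `n` is a power of two times
a product of distinct Fermat primes. -/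
theorem isConstructible_cos_iff {n : ℕ} (hn : 0 < n) :
    IsConstructible (Real.cos (2 * Real.pi / n)) ↔ IsFermatProduct n := by
  rw [← primitiveRoot_mem_iff hn (Complex.isPrimitiveRoot_exp n hn.ne')]
  have e : Complex.exp (2 * Real.pi * Complex.I / n) =
      Complex.exp (((2 * Real.pi / n : ℝ) : ℂ) * Complex.I) := by
    congr 1
    push_cast
    ring
  rw [e, mem_constructibleField, Complex.exp_ofReal_mul_I_re, Complex.exp_ofReal_mul_I_im]
  refine ⟨fun h => ⟨h, IsConstructible.of_sq ?_⟩, fun h => h.1⟩
  rw [Real.sin_sq]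
  exact (by simpa using IsConstructible.rat 1 : IsConstructible 1).sub (h.pow 2)

end FA.LemniscateDivision

end
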