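import Fermat.Agent.LemniscateDivision.Torsion

/-!
# The lemniscate by arc length

With `p = ℘(s/2)` and `q = ℘'(s/2)` for the invariants `4, 0`, the point
`q (p² + 2p - 1, p² - 2p - 1) / (√2 (p² + 1)²)` runs over the lemniscate `(x² + y²)² = x² - y²`
with unit speed and has period twice the real period.
-/

set_option autoImplicit false
set_option linter.style.haveILetI false

noncomputable section

namespace FA.LemniscateDivision

open FA.Mazur.Wp FA.ClassNumberOne Filter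
open scoped Topology

/-- The rational function giving a coordinate, `ε = 1` or `-1`. -/
def coordFun (L : PeriodPair) (ε : ℝ) (u : ℂ) : ℂ :=
  L.derivWeierstrassP u * (L.weierstrassP u ^ 2 + 2 * (ε : ℂ) * L.weierstrassP u - 1) /
    (L.weierstrassP u ^ 2 + 1) ^ 2

/-- A coordinate of the lemniscate at arc length `s`. -/
def lemCoord (L : PeriodPair) (ε s : ℝ) : ℝ := (coordFun L ε ((s / 2 : ℝ) : ℂ)).re / √2

/-- The lemniscate by arc length. -/
def lemPath (L : PeriodPair) (s : ℝ) : ℝ × ℝ := (lemCoord L 1 s, lemCoord L (-1) s)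

variable (L : PeriodPair) (h₂ : L.g₂ = 4) (h₃ : L.g₃ = 0) {ω : ℝ}
  (hω : 0 < ω) (hper : ∀ s : ℝ, (s : ℂ) ∈ L.lattice ↔ ∃ m : ℤ, s = m * ω)

include h₂ in
theorem g₂_real : L.g₂ = ((4 : ℝ) : ℂ) := by rw [h₂]; norm_num

include h₃ in
theorem g₃_real : L.g₃ = ((0 : ℝ) : ℂ) := by rw [h₃]; norm_num

include h₂ h₃ in
theorem lemCoord_eq (ε s : ℝ) :
    lemCoord L ε s = (L.derivWeierstrassP ((s / 2 : ℝ) : ℂ)).re *
      ((L.weierstrassP ((s / 2 : ℝ) : ℂ)).re ^ 2 +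
        2 * ε * (L.weierstrassP ((s / 2 : ℝ) : ℂ)).re - 1) /
      ((L.weierstrassP ((s / 2 : ℝ) : ℂ)).re ^ 2 + 1) ^ 2 / √2 := by
  obtain ⟨hp, hq⟩ := FA.RealPoints.wp_ofReal L (g₂_real L h₂) (g₃_real L h₃) (s / 2)
  rw [lemCoord, coordFun]
  conv_lhs => rw [← hp, ← hq]
  norm_cast

theorem coordFun_zero (ε : ℝ) : coordFun L ε 0 = 0 := by
  rw [coordFun, L.derivWeierstrassP_zero, zero_mul, zero_div]

theorem lemPath_zero : lemPath L 0 = 0 := by
  simp [lemPath, lemCoord, coordFun_zero]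

include hper in
theorem lemPath_add_period (s : ℝ) : lemPath L (s + 2 * ω) = lemPath L s := by
  have hl : (ω : ℂ) ∈ L.lattice := (hper ω).2 ⟨1, by simp⟩
  have e : ((((s + 2 * ω) / 2 : ℝ)) : ℂ) = ((s / 2 : ℝ) : ℂ) + (ω : ℂ) := by
    push_cast
    ring
  simp only [lemPath, lemCoord, coordFun, e, (wp_sub_coe L hl).1, (wp_sub_coe L hl).2]

/-- Near the origin a coordinate is `-2 u` to first order. -/
theorem hasDerivAt_coordFun_zero (ε : ℝ) : HasDerivAt (coordFun L ε) (-2) 0 := by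
  let A : ℂ → ℂ := fun u => 1 + u ^ 2 * L.weierstrassPExcept 0 u
  let B : ℂ → ℂ := fun u => u ^ 3 * L.derivWeierstrassPExcept 0 u - 2
  let G : ℂ → ℂ := fun u =>
    B u * (A u ^ 2 + 2 * (ε : ℂ) * A u * u ^ 2 - u ^ 4) / (A u ^ 2 + u ^ 4) ^ 2
  have hA : AnalyticAt ℂ A 0 :=
    analyticAt_const.add ((analyticAt_id.pow 2).mul (analyticAt_except_zero L).1)
  have hB : AnalyticAt ℂ B 0 :=
    ((analyticAt_id.pow 3).mul (analyticAt_except_zero L).2).sub analyticAt_const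
  have hG : AnalyticAt ℂ G 0 := (hB.mul (((hA.pow 2).add ((analyticAt_const.mul hA).mul
    (analyticAt_id.pow 2))).sub (analyticAt_id.pow 4))).div (((hA.pow 2).add
      (analyticAt_id.pow 4)).pow 2) (by simp [A])
  have heq : coordFun L ε =ᶠ[𝓝 0] fun u => u * G u := by
    filter_upwards with u
    by_cases hu : u = 0
    · subst hu
      rw [coordFun_zero, zero_mul]
    rw [coordFun, wp_eq_except L u, wq_eq_except L u]
    simp only [G, A, B]
    rw [show L.weierstrassPExcept 0 u + 1 / u ^ 2 =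
      (1 + u ^ 2 * L.weierstrassPExcept 0 u) / u ^ 2 by field_simp; ring,
      show L.derivWeierstrassPExcept 0 u - 2 / u ^ 3 =
      (u ^ 3 * L.derivWeierstrassPExcept 0 u - 2) / u ^ 3 by field_simp]
    generalize 1 + u ^ 2 * L.weierstrassPExcept 0 u = a
    generalize u ^ 3 * L.derivWeierstrassPExcept 0 u - 2 = b
    have e : (a / u ^ 2) ^ 2 + 1 = (a ^ 2 + u ^ 4) / u ^ 4 := by field_simp
    rw [e]
    field_simp
  have h0 : G 0 = -2 := by simp [G, A, B]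
  have h := (hasDerivAt_id (0 : ℂ)).mul hG.differentiableAt.hasDerivAt
  simp only [id_eq, one_mul, zero_mul, add_zero, h0] at h
  exact h.congr_of_eventuallyEq heq

/-- The derivative of a coordinate with respect to `u`, off the lattice. -/
def coordDeriv (ε p q : ℝ) : ℝ :=
  ((6 * p ^ 2 - 2) * (p ^ 2 + 2 * ε * p - 1) * (p ^ 2 + 1) + q ^ 2 * (2 * p + 2 * ε) * (p ^ 2 + 1) -
    4 * p * q ^ 2 * (p ^ 2 + 2 * ε * p - 1)) / (p ^ 2 + 1) ^ 3

include h₂ h₃ in
theorem hasDerivAt_lemCoord_off (ε : ℝ) {s : ℝ} (hs : ((s / 2 : ℝ) : ℂ) ∉ L.lattice) :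
    HasDerivAt (lemCoord L ε) (coordDeriv ε (L.weierstrassP ((s / 2 : ℝ) : ℂ)).re
      (L.derivWeierstrassP ((s / 2 : ℝ) : ℂ)).re / (2 * √2)) s := by
  obtain ⟨hp, hq⟩ := FA.RealPoints.wp_ofReal L (g₂_real L h₂) (g₃_real L h₃) (s / 2)
  have h1 := hasDerivAt_wp L hs
  have h2' := hasDerivAt_wq L hs
  rw [h₂] at h2'
  have hd : ((L.weierstrassP ((s / 2 : ℝ) : ℂ)) ^ 2 + 1) ^ 2 ≠ 0 := by
    rw [← hp]
    exact_mod_cast (by positivity : ((L.weierstrassP ((s / 2 : ℝ) : ℂ)).re ^ 2 + 1) ^ 2 ≠ 0)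
  have hn : HasDerivAt (coordFun L ε)
      ((coordDeriv ε (L.weierstrassP ((s / 2 : ℝ) : ℂ)).re
        (L.derivWeierstrassP ((s / 2 : ℝ) : ℂ)).re : ℝ) : ℂ) ((s / 2 : ℝ) : ℂ) := by
    refine HasDerivAt.congr_deriv ((h2'.mul (((h1.pow 2).add
      (h1.const_mul (2 * (ε : ℂ)))).sub_const 1)).div (((h1.pow 2).add_const 1).pow 2) hd) ?_
    simp only [coordDeriv, Pi.mul_apply, Pi.add_apply, Pi.pow_apply]
    push_cast at hp hq ⊢
    rw [hp, hq]
    have : L.weierstrassP ((s / 2 : ℝ) : ℂ) ^ 2 + 1 ≠ 0 := fun e => hd (by rw [e]; simp)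
    push_cast at this
    field_simp
    ring
  refine ((hn.real_of_complex.scomp s ((hasDerivAt_id s).div_const 2)).div_const
    √2).congr_deriv ?_
  rw [Complex.ofReal_re, smul_eq_mul]
  ring

include h₂ h₃ hω hper in
theorem one_le_wp {u : ℝ} (hu : (u : ℂ) ∉ L.lattice) : 1 ≤ (L.weierstrassP (u : ℂ)).re := by
  have hbeyond : ∀ t > (1 : ℝ), 0 < 4 * t ^ 3 - 4 * t - 0 := fun t ht => by
    nlinarith [one_lt_pow₀ ht two_ne_zero]
  have key : ∀ v ∈ Set.Ioc 0 (ω / 2), 1 ≤ (L.weierstrassP (v : ℂ)).re := fun v hv => by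
    rcases hv.2.eq_or_lt with rfl | hlt
    · exact (FA.RealPoints.wp_half_period L (g₂_real L h₂) (g₃_real L h₃) hω hper (e := 1)
        (by norm_num) hbeyond).ge
    · exact (FA.RealPoints.lt_wp_of_Ioo L (g₂_real L h₂) (g₃_real L h₃) hω hper (e := 1)
        (by norm_num) hbeyond ⟨hv.1, hlt⟩).le
  have hv0 : 0 < u - ⌊u / ω⌋ * ω := by
    have h1 := Int.floor_le (u / ω)
    rw [le_div_iff₀ hω] at h1
    rcases h1.eq_or_lt with e | h1
    · exact absurd ((hper u).2 ⟨_, e.symm⟩) hu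
    · linarith
  have hvω : u - ⌊u / ω⌋ * ω < ω := by
    have h1 := Int.lt_floor_add_one (u / ω)
    rw [div_lt_iff₀ hω] at h1
    linarith
  have hl : ((-(⌊u / ω⌋ : ℝ) * ω : ℝ) : ℂ) ∈ L.lattice :=
    (hper _).2 ⟨-⌊u / ω⌋, by push_cast; ring⟩
  have hw : (L.weierstrassP ((u - ⌊u / ω⌋ * ω : ℝ) : ℂ)).re = (L.weierstrassP (u : ℂ)).re := by
    rw [show u - (⌊u / ω⌋ : ℝ) * ω = u + -(⌊u / ω⌋ : ℝ) * ω by ring, Complex.ofReal_add,
      (wp_sub_coe L hl).1]
  rcases le_or_gt (u - ⌊u / ω⌋ * ω) (ω / 2) with hle | hgt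
  · exact hw ▸ key _ ⟨hv0, hle⟩
  · have hωl : (ω : ℂ) ∈ L.lattice := (hper ω).2 ⟨1, by simp⟩
    have e : (L.weierstrassP ((ω - (u - ⌊u / ω⌋ * ω) : ℝ) : ℂ)).re =
        (L.weierstrassP (u : ℂ)).re := by
      rw [Complex.ofReal_sub, show (ω : ℂ) - ((u - ⌊u / ω⌋ * ω : ℝ) : ℂ) =
        -((u - ⌊u / ω⌋ * ω : ℝ) : ℂ) + ω by ring, (wp_sub_coe L hωl).1, L.weierstrassP_neg, hw]
    exact e ▸ key _ ⟨by linarith, by linarith⟩

include h₂ h₃ in
theorem wq_sq {u : ℝ} (hu : (u : ℂ) ∉ L.lattice) :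
    (L.derivWeierstrassP (u : ℂ)).re ^ 2 =
      4 * (L.weierstrassP (u : ℂ)).re ^ 3 - 4 * (L.weierstrassP (u : ℂ)).re := by
  rw [FA.RealPoints.deriv_sq_real L (g₂_real L h₂) (g₃_real L h₃) hu, sub_zero]

include h₂ h₃ hω hper in
/-- **The parametrisation has unit speed.** -/
theorem hasDerivAt_lemPath (s : ℝ) :
    ∃ v : ℝ × ℝ, HasDerivAt (lemPath L) v s ∧ v.1 ^ 2 + v.2 ^ 2 = 1 := by
  by_cases hs : ((s / 2 : ℝ) : ℂ) ∈ L.lattice
  · obtain ⟨m, hm⟩ := (hper _).1 hs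
    have hd : ∀ ε : ℝ, HasDerivAt (lemCoord L ε) (-1 / √2) s := fun ε => by
      have h1 := (hasDerivAt_coordFun_zero L ε)
      rw [show (0 : ℂ) = ((0 : ℝ) : ℂ) by simp] at h1
      have h2' := (h1.real_of_complex.scomp_of_eq (h := fun y : ℝ => (y - s) / 2) s
        (((hasDerivAt_id s).sub_const s).div_const 2) (by simp)).div_const √2
      have e : lemCoord L ε = fun y => (coordFun L ε (((y - s) / 2 : ℝ) : ℂ)).re / √2 := by
        funext y
        have hl : ((m * ω : ℝ) : ℂ) ∈ L.lattice := hm ▸ hs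
        have e1 : ((y / 2 : ℝ) : ℂ) = (((y - s) / 2 : ℝ) : ℂ) + ((m * ω : ℝ) : ℂ) := by
          rw [← hm]; push_cast; ring
        simp only [lemCoord, coordFun, e1, (wp_sub_coe L hl).1, (wp_sub_coe L hl).2]
      rw [e]
      refine HasDerivAt.congr_deriv h2' ?_
      norm_num
    refine ⟨(-1 / √2, -1 / √2), (hd 1).prodMk (hd (-1)), ?_⟩
    rw [div_pow, Real.sq_sqrt zero_le_two]
    norm_num
  · refine ⟨_, (hasDerivAt_lemCoord_off L h₂ h₃ 1 hs).prodMk
      (hasDerivAt_lemCoord_off L h₂ h₃ (-1) hs), ?_⟩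
    have h := wq_sq L h₂ h₃ hs
    revert h
    generalize (L.weierstrassP ((s / 2 : ℝ) : ℂ)).re = p
    generalize (L.derivWeierstrassP ((s / 2 : ℝ) : ℂ)).re = q
    intro h
    have : p ^ 2 + 1 ≠ 0 := by positivity
    rw [div_pow, div_pow, mul_pow, Real.sq_sqrt zero_le_two, ← add_div, div_eq_one_iff_eq
      (by norm_num)]
    simp only [coordDeriv, h]
    field_simp
    ring

include h₂ h₃ hω hper in
/-- **The parametrisation covers exactly the lemniscate.** -/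
theorem range_lemPath :
    Set.range (lemPath L) = {P : ℝ × ℝ | (P.1 ^ 2 + P.2 ^ 2) ^ 2 = P.1 ^ 2 - P.2 ^ 2} := by
  refine Set.Subset.antisymm ?_ ?_
  · rintro _ ⟨s, rfl⟩
    show (_ ^ 2 + _ ^ 2) ^ 2 = _
    by_cases hs : ((s / 2 : ℝ) : ℂ) ∈ L.lattice
    · have e : L.derivWeierstrassP ((s / 2 : ℝ) : ℂ) = 0 := L.derivWeierstrassP_coe ⟨_, hs⟩
      simp only [lemPath, lemCoord, coordFun, e, zero_mul, zero_div, Complex.zero_re]
      ring
    simp only [lemPath, lemCoord_eq L h₂ h₃]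
    have h := wq_sq L h₂ h₃ hs
    revert h
    generalize (L.weierstrassP ((s / 2 : ℝ) : ℂ)).re = p
    generalize (L.derivWeierstrassP ((s / 2 : ℝ) : ℂ)).re = q
    intro h
    have : p ^ 2 + 1 ≠ 0 := by positivity
    simp only [div_pow, mul_pow, Real.sq_sqrt zero_le_two, h]
    field_simp
    ring
  · rintro ⟨x, y⟩ (h : (x ^ 2 + y ^ 2) ^ 2 = x ^ 2 - y ^ 2)
    by_cases h0 : x ^ 2 + y ^ 2 = 0
    · obtain ⟨rfl, rfl⟩ : x = 0 ∧ y = 0 := by
        constructor <;> nlinarith [sq_nonneg x, sq_nonneg y]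
      exact ⟨0, lemPath_zero L⟩
    have hpos : 0 < (x - y) * (x + y) := by
      have : 0 < (x ^ 2 + y ^ 2) ^ 2 := by positivity
      linarith [show (x - y) * (x + y) = x ^ 2 - y ^ 2 by ring]
    have hxy : x - y ≠ 0 := fun e => by simp [e] at hpos
    set t := (x + y) / (x - y) with ht
    have ht0 : 0 < t := by
      rw [ht, show (x + y) / (x - y) = (x - y) * (x + y) / (x - y) ^ 2 by field_simp]
      positivity
    set p := t + √(t ^ 2 + 1) with hp
    have hp1 : 1 < p := by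
      have : (1 : ℝ) ≤ √(t ^ 2 + 1) := Real.one_le_sqrt.2 (by nlinarith)
      linarith
    have hpt : p ^ 2 - 1 = 2 * p * t := by
      rw [hp]
      linear_combination Real.sq_sqrt (show (0 : ℝ) ≤ t ^ 2 + 1 by positivity)
    have hc : 0 < 4 * p ^ 3 - 4 * p := by nlinarith [one_lt_pow₀ hp1 two_ne_zero]
    set q₀ := √(4 * p ^ 3 - 4 * p) with hq₀
    have hq2 : q₀ ^ 2 = 4 * p ^ 3 - 4 * p := Real.sq_sqrt hc.le
    have hq0 : 0 < q₀ := Real.sqrt_pos.2 hc
    set d := √2 * (p ^ 2 + 1) ^ 2 with hd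
    have hd0 : 0 < d := by positivity
    set x₀ := q₀ * (p ^ 2 + 2 * p - 1) / d with hx₀
    set y₀ := q₀ * (p ^ 2 - 2 * p - 1) / d with hy₀
    have hC : (x₀ ^ 2 + y₀ ^ 2) ^ 2 = x₀ ^ 2 - y₀ ^ 2 := by
      simp only [hx₀, hy₀, hd, div_pow, mul_pow, Real.sq_sqrt zero_le_two, hq2]
      field_simp
      ring
    have hm0 : x₀ - y₀ = 4 * p * q₀ / d := by rw [hx₀, hy₀]; ring
    have hm0' : x₀ - y₀ ≠ 0 := by
      rw [hm0]
      have : 0 < p := by linarith
      positivity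
    have hplus : x₀ + y₀ = t * (x₀ - y₀) := by
      rw [hm0, hx₀, hy₀]
      linear_combination (2 * q₀ / d) * hpt
    set c := (x - y) / (x₀ - y₀) with hc'
    have hxm : x - y = c * (x₀ - y₀) := by rw [hc', div_mul_cancel₀ _ hm0']
    have hxp : x + y = c * (x₀ + y₀) := by
      rw [hplus, ← mul_assoc, mul_comm c t, mul_assoc, ← hxm, ht, div_mul_cancel₀ _ hxy]
    have hx : x = c * x₀ := by linarith
    have hy : y = c * y₀ := by linarith
    have hne : x₀ ^ 2 - y₀ ^ 2 ≠ 0 := fun e => h0 (by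
      rw [hx, hy]
      have : x₀ ^ 2 + y₀ ^ 2 = 0 := by nlinarith [hC]
      linear_combination c ^ 2 * this)
    have hcsq : c ^ 2 = 1 := by
      rw [hx, hy] at h
      have e : c ^ 2 * (c ^ 2 - 1) * (x₀ ^ 2 - y₀ ^ 2) = 0 := by
        linear_combination h - c ^ 4 * hC
      have hc0 : c ^ 2 ≠ 0 := pow_ne_zero 2 (div_ne_zero hxy hm0')
      simpa [hne, hc0, sub_eq_zero] using e
    obtain ⟨u, -, hup, huq⟩ := FA.RealPoints.exists_real_param L (g₂_real L h₂) (g₃_real L h₃)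
      hω hper (x := p) (y := c * q₀) (by rw [mul_pow, hcsq, one_mul, hq2, sub_zero])
      (fun s hs => by nlinarith [one_lt_pow₀ (hp1.trans hs) two_ne_zero])
    refine ⟨2 * u, ?_⟩
    simp only [lemPath, lemCoord_eq L h₂ h₃, mul_div_cancel_left₀ u (two_ne_zero' ℝ), hup, huq,
      Complex.ofReal_re]
    rw [hx, hy, hx₀, hy₀, hd]
    refine Prod.ext ?_ ?_ <;> simp only <;> field_simp <;> ring

include h₂ h₃ hω hper in
/-- **Away from the node each point is passed once in a period.** -/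
theorem lemPath_injOn :
    Set.InjOn (lemPath L) {s | s ∈ Set.Ico 0 (2 * ω) ∧ lemPath L s ≠ 0} := by
  haveI := isElliptic_latCurve (L := L) (by rw [h₂, h₃]; norm_num)
  have key : ∀ s, lemPath L s ≠ 0 → ((s / 2 : ℝ) : ℂ) ∉ L.lattice ∧
      0 < (L.weierstrassP ((s / 2 : ℝ) : ℂ)).re ∧
      (L.derivWeierstrassP ((s / 2 : ℝ) : ℂ)).re ≠ 0 := fun s h => by
    have hs : ((s / 2 : ℝ) : ℂ) ∉ L.lattice := fun hs => h (by
      have e : L.derivWeierstrassP ((s / 2 : ℝ) : ℂ) = 0 := L.derivWeierstrassP_coe ⟨_, hs⟩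
      simp only [lemPath, lemCoord, coordFun, e, zero_mul, zero_div, Complex.zero_re]
      rfl)
    refine ⟨hs, by linarith [one_le_wp L h₂ h₃ hω hper hs], fun hq => h ?_⟩
    simp only [lemPath, lemCoord_eq L h₂ h₃, hq, zero_mul, zero_div]
    rfl
  rintro s ⟨hs, hsn⟩ t ⟨ht, htn⟩ h
  obtain ⟨hsl, hp, hq⟩ := key s hsn
  obtain ⟨htl, hp', hq'⟩ := key t htn
  simp only [lemPath, lemCoord_eq L h₂ h₃, Prod.mk.injEq] at h
  obtain ⟨hx, hy⟩ := h
  obtain ⟨hps, hqs⟩ := FA.RealPoints.wp_ofReal L (g₂_real L h₂) (g₃_real L h₃) (s / 2)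
  obtain ⟨hpt, hqt⟩ := FA.RealPoints.wp_ofReal L (g₂_real L h₂) (g₃_real L h₃) (t / 2)
  set p := (L.weierstrassP ((s / 2 : ℝ) : ℂ)).re
  set q := (L.derivWeierstrassP ((s / 2 : ℝ) : ℂ)).re
  set p' := (L.weierstrassP ((t / 2 : ℝ) : ℂ)).re
  set q' := (L.derivWeierstrassP ((t / 2 : ℝ) : ℂ)).re
  have hd : p ^ 2 + 1 ≠ 0 := by positivity
  have hd' : p' ^ 2 + 1 ≠ 0 := by positivity
  field_simp at hx hy
  have hm : p * q * (p' ^ 2 + 1) ^ 2 = p' * q' * (p ^ 2 + 1) ^ 2 := by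
    linear_combination (1 / 4 : ℝ) * hx - (1 / 4 : ℝ) * hy
  have hpl : (p ^ 2 - 1) * q * (p' ^ 2 + 1) ^ 2 = (p' ^ 2 - 1) * q' * (p ^ 2 + 1) ^ 2 := by
    linear_combination (1 / 2 : ℝ) * hx + (1 / 2 : ℝ) * hy
  have hpp : (p - p') * (p * p' + 1) * (q * q' * (p ^ 2 + 1) ^ 2 * (p' ^ 2 + 1) ^ 2) = 0 := by
    linear_combination p' * q' * (p ^ 2 + 1) ^ 2 * hpl - (p' ^ 2 - 1) * q' * (p ^ 2 + 1) ^ 2 * hm
  have hne : (p * p' + 1) * (q * q' * (p ^ 2 + 1) ^ 2 * (p' ^ 2 + 1) ^ 2) ≠ 0 := by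
    have : p * p' + 1 ≠ 0 := by positivity
    positivity
  have hpe : p = p' := sub_eq_zero.1
    ((mul_eq_zero.1 (by rwa [mul_assoc] at hpp)).resolve_right hne)
  have hqe : q = q' := by
    rw [← hpe] at hm
    exact mul_left_cancel₀ hp.ne' (mul_right_cancel₀ (pow_ne_zero 2 hd) hm)
  have hu : unif L ((s / 2 : ℝ) : ℂ) = unif L ((t / 2 : ℝ) : ℂ) := by
    rw [unif_of_notMem L hsl, unif_of_notMem L htl]
    simp only [← hps, ← hqs, ← hpt, ← hqt, hpe, hqe]
  rw [unif_eq_unif_iff, ← Complex.ofReal_sub, hper] at hu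
  obtain ⟨m, hm'⟩ := hu
  have h1 : (-1 : ℝ) < m := by nlinarith [hs.1, ht.2]
  have h2 : (m : ℝ) < 1 := by nlinarith [hs.2, ht.1]
  have h3 : (-1 : ℤ) < m := by exact_mod_cast h1
  have h4 : m < 1 := by exact_mod_cast h2
  obtain rfl : m = 0 := by omega
  rw [Int.cast_zero, zero_mul] at hm'
  linarith

theorem isConstructible_lemCoord {p q ε : ℝ} (hp : IsConstructible p) (hq : IsConstructible q)
    (hε : IsConstructible ε) :
    IsConstructible (q * (p ^ 2 + 2 * ε * p - 1) / (p ^ 2 + 1) ^ 2 / √2) := by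
  have h1 : IsConstructible (1 : ℝ) := by simpa using IsConstructible.rat 1
  have h2 : IsConstructible (2 : ℝ) := by simpa using IsConstructible.rat 2
  exact ((hq.mul (((hp.pow 2).add ((h2.mul hε).mul hp)).sub h1)).div
    (((hp.pow 2).add h1).pow 2)).div h2.sqrt

include h₂ h₃ hω hper in
/-- **All division points into `n` arcs are constructible for a Fermat product.** -/
theorem isConstructible_lemPath_div {n : ℕ} (hn : 0 < n) (hF : IsFermatProduct n) (k : ℤ) :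
    IsConstructible (lemPath L (k * (2 * ω) / n)).1 ∧
      IsConstructible (lemPath L (k * (2 * ω) / n)).2 := by
  haveI := isElliptic_latCurve (L := L) (by rw [h₂, h₃]; norm_num)
  obtain ⟨hx, hy⟩ := torsPt_mem_constructibleField L h₂ h₃ hω hper hn hF (k : GaussianInt)
  have e : ((k : GaussianInt) : ℂ) * (ω : ℂ) / n = (((k * (2 * ω) / n) / 2 : ℝ) : ℂ) := by
    rw [map_intCast]
    push_cast
    ring
  rw [torsPt, e, xP_unif] at hx
  rw [torsPt, e, yP_unif] at hy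
  have hp := (mem_constructibleField.1 hx).1
  have hq : IsConstructible (L.derivWeierstrassP (((k * (2 * ω) / n) / 2 : ℝ) : ℂ)).re := by
    have h := (IsConstructible.nat 2).mul (mem_constructibleField.1 hy).1
    convert h using 1
    rw [Complex.div_ofNat_re]
    push_cast
    ring
  simp only [lemPath, lemCoord_eq L h₂ h₃]
  exact ⟨isConstructible_lemCoord hp hq (by simpa using IsConstructible.rat 1),
    isConstructible_lemCoord hp hq (by simpa using IsConstructible.rat (-1))⟩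

include h₂ h₃ hω hper in
/-- **The first division point already decides.** -/
theorem isFermatProduct_of_lemPath {n : ℕ} (hn : 0 < n)
    (h : IsConstructible (lemPath L (2 * ω / n)).1 ∧ IsConstructible (lemPath L (2 * ω / n)).2) :
    IsFermatProduct n := by
  rcases lt_or_ge n 3 with hlt | hge
  · rw [isFermatProduct_iff]
    refine ⟨0, ?_⟩
    interval_cases n <;> decide
  haveI := isElliptic_latCurve (L := L) (by rw [h₂, h₃]; norm_num)
  have hn2 : (2 : ℝ) < n := by exact_mod_cast (by omega : 2 < n)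
  have hu : ω / n ∈ Set.Ioo 0 (ω / 2) :=
    ⟨by positivity, by rw [div_lt_div_iff₀ (by linarith) two_pos]; nlinarith⟩
  have hbeyond : ∀ t > (1 : ℝ), 0 < 4 * t ^ 3 - 4 * t - 0 := fun t ht => by
    nlinarith [one_lt_pow₀ ht two_ne_zero]
  have hp1 := FA.RealPoints.lt_wp_of_Ioo L (g₂_real L h₂) (g₃_real L h₃) hω hper (e := 1)
    (by norm_num) hbeyond hu
  have hl : ((ω / n : ℝ) : ℂ) ∉ L.lattice :=
    FA.RealPoints.notMem_lattice_of_Ioo L hω hper ⟨hu.1, by linarith [hu.2]⟩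
  have hq2 := wq_sq L h₂ h₃ hl
  have e : 2 * ω / n / 2 = ω / n := by ring
  simp only [lemPath, lemCoord_eq L h₂ h₃, e] at h
  apply isFermatProduct_of_mem_constructibleField L h₂ h₃ hω hper hn
  rw [torsPt, GaussianInt.toComplex_one, one_mul, xP_unif,
    show (ω : ℂ) / n = ((ω / n : ℝ) : ℂ) by push_cast; ring,
    ← (FA.RealPoints.wp_ofReal L (g₂_real L h₂) (g₃_real L h₃) (ω / n)).1,
    ofReal_mem_constructibleField]
  revert h hp1 hq2
  generalize (L.weierstrassP ((ω / n : ℝ) : ℂ)).re = p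
  generalize (L.derivWeierstrassP ((ω / n : ℝ) : ℂ)).re = q
  intro hp1 hq2 h
  have hq0 : q ≠ 0 := fun e' => by
    rw [e'] at hq2
    nlinarith [hbeyond p hp1]
  have h1 : IsConstructible (1 : ℝ) := by simpa using IsConstructible.rat 1
  obtain ⟨hx, hy⟩ := h
  have ht : IsConstructible ((p ^ 2 - 1) / (2 * p)) := by
    have := (hx.add hy).div (hx.sub hy)
    convert this using 1
    have hp0 : p ≠ 0 := by linarith
    have : p ^ 2 + 1 ≠ 0 := by positivity
    rw [show q * (p ^ 2 + 2 * 1 * p - 1) / (p ^ 2 + 1) ^ 2 / √2 +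
        q * (p ^ 2 + 2 * -1 * p - 1) / (p ^ 2 + 1) ^ 2 / √2 =
        (p ^ 2 - 1) * (2 * q / (p ^ 2 + 1) ^ 2 / √2) by ring,
      show q * (p ^ 2 + 2 * 1 * p - 1) / (p ^ 2 + 1) ^ 2 / √2 -
        q * (p ^ 2 + 2 * -1 * p - 1) / (p ^ 2 + 1) ^ 2 / √2 =
        2 * p * (2 * q / (p ^ 2 + 1) ^ 2 / √2) by ring]
    exact (mul_div_mul_right _ _ (by positivity)).symm
  have hroot := ht.add ((ht.pow 2).add h1).sqrt
  convert hroot using 1
  have hp0 : 0 < p := by linarith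
  have e2 : ((p ^ 2 - 1) / (2 * p)) ^ 2 + 1 = ((p ^ 2 + 1) / (2 * p)) ^ 2 := by
    field_simp
    ring
  rw [e2, Real.sqrt_sq (by positivity)]
  field_simp
  ring

end FA.LemniscateDivision

end
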