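import Fermat.Agent.LemniscateDivision.Constructible
import Fermat.Agent.ClassNumberOne.Transport
import Fermat.Agent.RealPoints.GammaPeriod
import Fermat.Agent.Period.AutC
import Fermat.Agent.Weight1.FiniteImage
import Fermat.Agent.Root.SummaryWeilPairing

/-!
# The torsion of `y² = x³ - x` and constructibility

For a lattice with invariants `4, 0` and real period `ω` the `n`-torsion is `ℤ[i] ω / n`. A field
automorphism fixing `i` acts on it through a unit of `ℤ[i]` modulo `n`; for a Fermat product `n`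
every such unit has two-power order, so the coordinates are constructible. Conversely the
coordinates generate the `n`-th roots of unity.
-/

set_option autoImplicit false
set_option linter.style.haveILetI false

noncomputable section

namespace FA.LemniscateDivision

open FA.Mazur.Wp FA.ClassNumberOne WeierstrassCurve
open scoped WeierstrassCurve.Affine

local notation "Qb" => AlgebraicClosure ℚ

/-- A Fermat prime leaves only units of two-power order in the Gaussian integers modulo it. -/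
theorem exists_prime_dvd_pow_two_pow_sub_one {p m : ℕ} (hp : p.Prime) (hm : p = 2 ^ 2 ^ m + 1)
    {α δ : GaussianInt} (h : (p : GaussianInt) ∣ α * δ - 1) :
    ∃ K, (p : GaussianInt) ∣ α ^ 2 ^ K - 1 := by
  haveI : Fact p.Prime := ⟨hp⟩
  have hint : ∀ a : ℤ, (p : GaussianInt) ∣ ((a ^ p - a : ℤ) : GaussianInt) := fun a => by
    have : (p : ℤ) ∣ a ^ p - a := by
      rw [← ZMod.intCast_eq_intCast_iff_dvd_sub, Int.cast_pow, ZMod.pow_card]
    simpa using map_dvd (Int.castRingHom GaussianInt) this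
  have hfrob : ∀ β : GaussianInt, (p : GaussianInt) ∣
      β ^ p - ((β.re : GaussianInt) + (β.im : GaussianInt) * (Zsqrtd.sqrtd : GaussianInt) ^ p) :=
    fun β => by
      obtain ⟨r, hr⟩ := exists_add_pow_prime_eq hp (β.re : GaussianInt)
        ((β.im : GaussianInt) * (Zsqrtd.sqrtd : GaussianInt))
      have e : β = (β.re : GaussianInt) + (β.im : GaussianInt) * Zsqrtd.sqrtd := by
        ext <;> simp
      conv in β ^ p => rw [e]
      obtain ⟨c₁, hc₁⟩ := hint β.re
      obtain ⟨c₂, hc₂⟩ := hint β.im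
      rw [hr, mul_pow]
      refine ⟨c₁ + c₂ * Zsqrtd.sqrtd ^ p + (β.re : GaussianInt) *
        ((β.im : GaussianInt) * Zsqrtd.sqrtd) * r, ?_⟩
      push_cast at hc₁ hc₂
      linear_combination hc₁ + (Zsqrtd.sqrtd : GaussianInt) ^ p * hc₂
  have hcancel : ∀ N : ℕ, 0 < N → (p : GaussianInt) ∣ α ^ N - α →
      (p : GaussianInt) ∣ α ^ (N - 1) - 1 := by
    rintro (_ | N) hN hd
    · exact absurd hN (lt_irrefl 0)
    rw [Nat.add_sub_cancel]
    obtain ⟨a, ha⟩ := hd
    obtain ⟨b, hb⟩ := h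
    exact ⟨δ * a - (α ^ N - 1) * b, by linear_combination δ * ha - (α ^ N - 1) * hb⟩
  have hs : (Zsqrtd.sqrtd : GaussianInt) ^ 2 = -1 := by
    ext <;> simp [pow_two]
  rcases m with _ | m
  · obtain rfl : p = 3 := by simpa using hm
    refine ⟨3, hcancel 9 (by norm_num) ?_⟩
    obtain ⟨c₁, hc₁⟩ := hfrob α
    obtain ⟨c₂, hc₂⟩ := hfrob (α ^ 3)
    obtain ⟨c₃, hc₃⟩ := hint α.re
    -- cubing twice is the identity
    obtain ⟨c, hc⟩ : (3 : GaussianInt) ∣ α ^ 3 - star α := by
      refine ⟨c₁, ?_⟩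
      have e : star α = (α.re : GaussianInt) + (α.im : GaussianInt) *
          (Zsqrtd.sqrtd : GaussianInt) ^ 3 := by
        rw [pow_succ, hs]
        ext <;> simp
      rw [e]
      exact_mod_cast hc₁
    obtain ⟨d, hd⟩ : (3 : GaussianInt) ∣ star α ^ 3 - α := by
      refine ⟨star c, ?_⟩
      have := congrArg star hc
      rwa [star_sub, star_pow, star_star, star_mul', star_ofNat] at this
    refine ⟨c * ((α ^ 3) ^ 2 + α ^ 3 * star α + star α ^ 2) + d, ?_⟩
    push_cast
    linear_combination ((α ^ 3) ^ 2 + α ^ 3 * star α + star α ^ 2) * hc + hd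
  · refine ⟨2 ^ (m + 1), ?_⟩
    have e : 2 ^ 2 ^ (m + 1) = p - 1 := by rw [hm, Nat.add_sub_cancel]
    rw [e]
    refine hcancel p hp.pos ?_
    obtain ⟨c, hc⟩ := hfrob α
    refine ⟨c, ?_⟩
    have h4 : (Zsqrtd.sqrtd : GaussianInt) ^ p = Zsqrtd.sqrtd := by
      obtain ⟨j, hj⟩ : 4 ∣ 2 ^ 2 ^ (m + 1) := by
        refine (pow_dvd_pow 2 (?_ : 2 ≤ 2 ^ (m + 1)))
        calc 2 = 2 ^ 1 := rfl
          _ ≤ 2 ^ (m + 1) := Nat.pow_le_pow_right two_pos (by omega)
      rw [hm, hj, pow_succ, pow_mul, show (4 : ℕ) = 2 * 2 from rfl, pow_mul, hs]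
      simp
    have e' : α = (α.re : GaussianInt) + (α.im : GaussianInt) * Zsqrtd.sqrtd := by
      ext <;> simp
    rw [h4, ← e'] at hc
    exact hc

/-- **Units of `ℤ[i]` modulo a Fermat product have two-power order.** -/
theorem exists_dvd_pow_two_pow_sub_one {n : ℕ} (hn : IsFermatProduct n) {α δ : GaussianInt}
    (h : (n : GaussianInt) ∣ α * δ - 1) : ∃ K, (n : GaussianInt) ∣ α ^ 2 ^ K - 1 := by
  have mono : ∀ {d : GaussianInt} {i j : ℕ}, i ≤ j → d ∣ α ^ 2 ^ i - 1 → d ∣ α ^ 2 ^ j - 1 := by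
    intro d i j hij hd
    obtain ⟨l, rfl⟩ := Nat.exists_eq_add_of_le hij
    rw [pow_add, pow_mul]
    exact hd.trans (by simpa using sub_dvd_pow_sub_pow (α ^ 2 ^ i) 1 (2 ^ l))
  obtain ⟨k, S, hS, rfl⟩ := hn
  induction S using Finset.induction with
  | empty =>
    simp only [Finset.prod_empty, mul_one, Nat.cast_pow, Nat.cast_ofNat] at h ⊢
    rcases k with _ | k
    · exact ⟨0, by simp⟩
    refine ⟨k + 1, ?_⟩
    clear mono
    induction k with
    | zero =>
      obtain ⟨c, hc⟩ := h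
      rw [zero_add, pow_one] at hc ⊢
      -- a unit modulo `2` has norm odd
      obtain ⟨a, b⟩ := α
      obtain ⟨u, v⟩ := δ
      have h1 := congrArg Zsqrtd.re hc
      have h2 := congrArg Zsqrtd.im hc
      simp at h1 h2
      have hab : (a + b) % 2 = 1 := by
        by_contra hne
        have he : (2 : ℤ) ∣ a + b := by omega
        have : (2 : ℤ) ∣ (a + b) * (u + v) - 2 * (b * v) := dvd_sub (he.mul_right _) ⟨b * v, rfl⟩
        have e : (a + b) * (u + v) - 2 * (b * v) = 1 + 2 * c.re + 2 * c.im := by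
          linear_combination h1 + h2
        omega
      obtain ⟨q, hq⟩ : (2 : ℤ) ∣ a + b - 1 := by omega
      refine ⟨⟨q * (a - b) + (a - b - 1) / 2, a * b⟩, ?_⟩
      obtain ⟨r, hr⟩ : (2 : ℤ) ∣ a - b - 1 := by omega
      have hr' : (a - b - 1) / 2 = r := by omega
      ext
      · simp [pow_two, hr']
        linear_combination (a - b) * hq + hr
      · simp [pow_two]
        ring
    | succ k ih =>
      obtain ⟨c, hc⟩ := ih ((pow_dvd_pow 2 (by omega : k + 1 ≤ k + 1 + 1)).trans h)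
      refine ⟨2 ^ k * c ^ 2 + c, ?_⟩
      rw [pow_succ 2 (k + 1), pow_mul]
      linear_combination (α ^ 2 ^ (k + 1) + 1 + 2 ^ (k + 1) * c) * hc
  | insert p S hp ih =>
    obtain ⟨hpp, m, hm⟩ := hS p (Finset.mem_insert_self p S)
    rw [Finset.prod_insert hp, ← mul_assoc, mul_comm (2 ^ k) p, mul_assoc, Nat.cast_mul] at h ⊢
    obtain ⟨i, hi⟩ := exists_prime_dvd_pow_two_pow_sub_one hpp hm ((dvd_mul_right _ _).trans h)
    obtain ⟨j, hj⟩ := ih (fun q hq => hS q (Finset.mem_insert_of_mem hq))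
      ((dvd_mul_left _ _).trans h)
    refine ⟨max i j, IsCoprime.mul_dvd ?_ (mono (le_max_left i j) hi) (mono (le_max_right i j) hj)⟩
    have hodd : Nat.Coprime p 2 := by
      rw [hm]
      simp [Nat.coprime_two_right, parity_simps]
    have hco : Nat.Coprime p (2 ^ k * ∏ q ∈ S, q) :=
      (hodd.pow_right k).mul_right (Nat.Coprime.prod_right fun q hq =>
        (Nat.coprime_primes hpp (hS q (Finset.mem_insert_of_mem hq)).1).2
          (ne_of_mem_of_not_mem hq hp).symm)
    have := (Nat.isCoprime_iff_coprime.2 hco).map (Int.castRingHom GaussianInt)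
    simpa using this

variable (L : PeriodPair) [(latCurve L).IsElliptic] (h₂ : L.g₂ = 4) (h₃ : L.g₃ = 0) {ω : ℝ}
  (hω : 0 < ω) (hper : ∀ s : ℝ, (s : ℂ) ∈ L.lattice ↔ ∃ m : ℤ, s = m * ω)

/-- The point of parameter `β ω / n`. -/
def torsPt (ω : ℝ) (n : ℕ) (β : GaussianInt) : (latCurve L).toAffine.Point :=
  unif L ((β : ℂ) * ω / n)

theorem torsPt_add (n : ℕ) (β γ : GaussianInt) :
    torsPt L ω n (β + γ) = torsPt L ω n β + torsPt L ω n γ := by
  rw [torsPt, torsPt, torsPt, ← unif_add, GaussianInt.toComplex_add]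
  congr 1
  ring

theorem torsPt_zsmul (n : ℕ) (a : ℤ) (β : GaussianInt) :
    torsPt L ω n (a * β) = a • torsPt L ω n β := by
  rw [torsPt, torsPt, ← unifHom_apply, ← unifHom_apply, ← map_zsmul, zsmul_eq_mul]
  congr 1
  rw [GaussianInt.toComplex_mul, map_intCast]
  ring

omit [(latCurve L).IsElliptic] in
include h₂ h₃ hω hper in
theorem mem_lattice_gauss (z : ℂ) : z ∈ L.lattice ↔ ∃ g : GaussianInt, z = (g : ℂ) * ω := by
  rw [FA.RealPoints.mem_lattice_square L (g := 4) (e := 1) (by rw [h₂]; norm_num) h₃ hω hper one_pos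
    (by norm_num) (fun t ht => by nlinarith [one_lt_pow₀ ht two_ne_zero])]
  constructor
  · rintro ⟨⟨a, b⟩, rfl⟩
    exact ⟨⟨a, b⟩, by rw [GaussianInt.toComplex_def']; ring⟩
  · rintro ⟨⟨a, b⟩, rfl⟩
    exact ⟨(a, b), by rw [GaussianInt.toComplex_def']; ring⟩

include h₂ h₃ hω hper in
theorem torsPt_eq_iff {n : ℕ} (hn : 0 < n) (β γ : GaussianInt) :
    torsPt L ω n β = torsPt L ω n γ ↔ (n : GaussianInt) ∣ β - γ := by
  have hn' : (n : ℂ) ≠ 0 := Nat.cast_ne_zero.2 hn.ne'
  have hω' : (ω : ℂ) ≠ 0 := Complex.ofReal_ne_zero.2 hω.ne'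
  rw [torsPt, torsPt, unif_eq_unif_iff, mem_lattice_gauss L h₂ h₃ hω hper]
  refine exists_congr fun g => ?_
  rw [← GaussianInt.toComplex_inj (x := β - γ), GaussianInt.toComplex_sub,
    GaussianInt.toComplex_mul, map_natCast, ← sub_div, ← sub_mul, div_eq_iff hn',
    show (g : ℂ) * ω * n = (n : ℂ) * g * ω by ring]
  exact ⟨mul_right_cancel₀ hω', fun h => by rw [h]⟩

include h₂ h₃ hω hper in
theorem finite_range_torsPt {n : ℕ} (hn : 0 < n) : (Set.range (torsPt L ω n)).Finite := by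
  classical
  refine ((Finset.range n ×ˢ Finset.range n).image fun x =>
    torsPt L ω n ⟨(x.1 : ℤ), (x.2 : ℤ)⟩).finite_toSet.subset ?_
  rintro _ ⟨β, rfl⟩
  have hn' : (n : ℤ) ≠ 0 := by exact_mod_cast hn.ne'
  refine Finset.mem_coe.2 (Finset.mem_image.2 ⟨((β.re % n).toNat, (β.im % n).toNat), ?_, ?_⟩)
  · have := Int.emod_lt_of_pos β.re (by exact_mod_cast hn : (0 : ℤ) < n)
    have := Int.emod_lt_of_pos β.im (by exact_mod_cast hn : (0 : ℤ) < n)
    have := Int.emod_nonneg β.re hn'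
    have := Int.emod_nonneg β.im hn'
    simp only [Finset.mem_product, Finset.mem_range]
    omega
  · rw [torsPt_eq_iff L h₂ h₃ hω hper hn]
    refine ⟨⟨-(β.re / n), -(β.im / n)⟩, ?_⟩
    simp only [Int.toNat_of_nonneg (Int.emod_nonneg _ hn')]
    ext
    · simp
      linear_combination Int.emod_add_mul_ediv β.re n
    · simp
      linear_combination Int.emod_add_mul_ediv β.im n

include h₂ h₃ in
theorem map_invariant (σ : ℂ ≃+* ℂ) : σ L.g₂ = L.g₂ ∧ σ L.g₃ = L.g₃ := by
  rw [h₂, h₃]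
  simp [map_ofNat]

/-- The action of an automorphism of `ℂ` on the points. -/
def autPt (σ : ℂ ≃+* ℂ) :
    (latCurve L).toAffine.Point →+ (latCurve L).toAffine.Point :=
  mapPt (σ : ℂ →+* ℂ)
    (map_latCurve σ (map_invariant L h₂ h₃ σ).1 (map_invariant L h₂ h₃ σ).2)

theorem xP_autPt (σ : ℂ ≃+* ℂ) (Q) : xP (autPt L h₂ h₃ σ Q) = σ (xP Q) := xP_mapPt _ _ Q

theorem yP_autPt (σ : ℂ ≃+* ℂ) (Q) : yP (autPt L h₂ h₃ σ Q) = σ (yP Q) := yP_mapPt _ _ Q

include hω hper in
/-- The torsion is carried to itself. -/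
theorem exists_autPt_torsPt (σ : ℂ ≃+* ℂ) {n : ℕ} (hn : 0 < n) (β : GaussianInt) :
    ∃ γ, autPt L h₂ h₃ σ (torsPt L ω n β) = torsPt L ω n γ := by
  obtain ⟨z, hz⟩ := unif_surjective L (autPt L h₂ h₃ σ (torsPt L ω n β))
  have h0 : n • torsPt L ω n β = 0 := by
    rw [torsPt, ← unifHom_apply, ← map_nsmul, unifHom_apply, unif_eq_zero_iff, nsmul_eq_mul,
      mul_div_cancel₀ _ (Nat.cast_ne_zero.2 hn.ne'), mem_lattice_gauss L h₂ h₃ hω hper]
    exact ⟨β, rfl⟩
  have h1 := congrArg (autPt L h₂ h₃ σ) h0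
  rw [map_nsmul, map_zero, ← hz, ← unifHom_apply, ← map_nsmul, unifHom_apply, unif_eq_zero_iff,
    nsmul_eq_mul, mem_lattice_gauss L h₂ h₃ hω hper] at h1
  obtain ⟨γ, hγ⟩ := h1
  refine ⟨γ, hz.symm.trans ?_⟩
  rw [torsPt, ← hγ, mul_div_cancel_left₀ _ (Nat.cast_ne_zero.2 hn.ne')]

/-- An automorphism fixing `i` commutes with multiplication by Gaussian integers. -/
theorem autPt_torsPt (σ : ℂ ≃+* ℂ) (hσ : σ Complex.I = Complex.I) {n : ℕ} {α : GaussianInt}
    (h : autPt L h₂ h₃ σ (torsPt L ω n 1) = torsPt L ω n α) (β : GaussianInt) :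
    autPt L h₂ h₃ σ (torsPt L ω n β) = torsPt L ω n (α * β) := by
  have hi : autPt L h₂ h₃ σ (torsPt L ω n Zsqrtd.sqrtd) = torsPt L ω n (α * Zsqrtd.sqrtd) := by
    have ht := (transport σ (map_invariant L h₂ h₃ σ).1 (map_invariant L h₂ h₃ σ).2
      (fun l hl => FA.RealPoints.I_mul_mem L h₃ hl) (t := 0) (n := 1) one_ne_zero
      (by simp)).2 _ _ h
    have e : ∀ γ : GaussianInt, torsPt L ω n (γ * Zsqrtd.sqrtd) =
        unif L (Complex.I * ((γ : ℂ) * ω / n)) := fun γ => by
      rw [torsPt, GaussianInt.toComplex_mul]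
      congr 1
      rw [show ((Zsqrtd.sqrtd : GaussianInt) : ℂ) = Complex.I by
        simp [GaussianInt.toComplex_def]]
      ring
    rw [torsPt, mulPt_unif, hσ] at ht
    rw [e α, ← one_mul (Zsqrtd.sqrtd : GaussianInt), e 1]
    exact ht
  have e : β = (β.re : GaussianInt) * 1 + (β.im : GaussianInt) * Zsqrtd.sqrtd := by
    ext <;> simp
  conv_lhs => rw [e]
  rw [torsPt_add, torsPt_zsmul, torsPt_zsmul, map_add, map_zsmul, map_zsmul, h, hi, ← torsPt_zsmul,
    ← torsPt_zsmul, ← torsPt_add]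
  congr 1
  conv_rhs => rw [e]
  ring

include h₂ h₃ hω hper in
/-- **For a Fermat product some two-power iterate fixes the torsion.** -/
theorem exists_iterate_fix {n : ℕ} (hn : 0 < n) (hF : IsFermatProduct n) (σ : ℂ ≃+* ℂ)
    (hσ : σ Complex.I = Complex.I) :
    ∃ K, ∀ β, σ^[2 ^ K] (xP (torsPt L ω n β)) = xP (torsPt L ω n β) ∧
      σ^[2 ^ K] (yP (torsPt L ω n β)) = yP (torsPt L ω n β) := by
  obtain ⟨α, hα⟩ := exists_autPt_torsPt L h₂ h₃ hω hper σ hn 1
  obtain ⟨δ, hδ⟩ := exists_autPt_torsPt L h₂ h₃ hω hper σ.symm hn 1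
  have hinv : ∀ Q, autPt L h₂ h₃ σ (autPt L h₂ h₃ σ.symm Q) = Q := by
    rintro (_ | ⟨x, y, hxy⟩)
    · rfl
    · show Affine.Point.some _ _ _ = _
      simp
  have hunit : (n : GaussianInt) ∣ α * δ - 1 := by
    rw [← torsPt_eq_iff L h₂ h₃ hω hper hn, ← autPt_torsPt L h₂ h₃ σ hσ hα, ← hδ, hinv]
  obtain ⟨K, hK⟩ := exists_dvd_pow_two_pow_sub_one hF hunit
  have hit : ∀ (j : ℕ) β, σ^[j] (xP (torsPt L ω n β)) = xP (torsPt L ω n (α ^ j * β)) ∧
      σ^[j] (yP (torsPt L ω n β)) = yP (torsPt L ω n (α ^ j * β)) := by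
    intro j β
    induction j with
    | zero => simp
    | succ j ih =>
      rw [Function.iterate_succ_apply', Function.iterate_succ_apply', ih.1, ih.2,
        ← xP_autPt L h₂ h₃, ← yP_autPt L h₂ h₃, autPt_torsPt L h₂ h₃ σ hσ hα, ← mul_assoc,
        ← pow_succ']
      exact ⟨rfl, rfl⟩
  refine ⟨K, fun β => ?_⟩
  obtain ⟨hx, hy⟩ := hit (2 ^ K) β
  have e : torsPt L ω n (α ^ 2 ^ K * β) = torsPt L ω n β :=
    (torsPt_eq_iff L h₂ h₃ hω hper hn _ _).2 (by
      rw [show α ^ 2 ^ K * β - β = (α ^ 2 ^ K - 1) * β by ring]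
      exact hK.mul_right β)
  rw [hx, hy, e]
  exact ⟨rfl, rfl⟩

include h₂ h₃ hω hper in
/-- **For a Fermat product the `n`-torsion is constructible.** -/
theorem torsPt_mem_constructibleField {n : ℕ} (hn : 0 < n) (hF : IsFermatProduct n)
    (β : GaussianInt) :
    xP (torsPt L ω n β) ∈ constructibleField ∧ yP (torsPt L ω n β) ∈ constructibleField := by
  classical
  -- a finite set stable under all automorphisms
  let S : Set ℂ := {Complex.I, -Complex.I} ∪
    (xP '' Set.range (torsPt L ω n) ∪ yP '' Set.range (torsPt L ω n))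
  have hSf : S.Finite := (Set.toFinite _).union
    (((finite_range_torsPt L h₂ h₃ hω hper hn).image _).union
      ((finite_range_torsPt L h₂ h₃ hω hper hn).image _))
  have hI : ∀ τ : ℂ ≃+* ℂ, τ Complex.I = Complex.I ∨ τ Complex.I = -Complex.I := fun τ => by
    refine sq_eq_sq_iff_eq_or_eq_neg.1 ?_
    rw [← map_pow, Complex.I_sq, map_neg, map_one]
  have hstab : ∀ τ : ℂ ≃+* ℂ, ∀ z ∈ S, τ z ∈ S := by
    intro τ z hz
    simp only [S, Set.mem_union, Set.mem_insert_iff, Set.mem_singleton_iff] at hz ⊢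
    rcases hz with (rfl | rfl) | ⟨_, ⟨γ, rfl⟩, rfl⟩ | ⟨_, ⟨γ, rfl⟩, rfl⟩
    · exact Or.inl (hI τ)
    · refine Or.inl ?_
      rw [map_neg]
      rcases hI τ with e | e <;> simp [e]
    · obtain ⟨γ', hγ⟩ := exists_autPt_torsPt L h₂ h₃ hω hper τ hn γ
      exact Or.inr (Or.inl ⟨_, ⟨γ', rfl⟩, by rw [← hγ, xP_autPt]⟩)
    · obtain ⟨γ', hγ⟩ := exists_autPt_torsPt L h₂ h₃ hω hper τ hn γ
      exact Or.inr (Or.inr ⟨_, ⟨γ', rfl⟩, by rw [← hγ, yP_autPt]⟩)
  -- they are the roots of a rational polynomial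
  let P : Polynomial ℂ := ∏ z ∈ hSf.toFinset, (Polynomial.X - Polynomial.C z)
  have hfix : ∀ τ : ℂ ≃+* ℂ, P.map (τ : ℂ →+* ℂ) = P := fun τ => by
    have himg : hSf.toFinset.image τ = hSf.toFinset := Finset.eq_of_subset_of_card_le
      (Finset.image_subset_iff.2 fun z hz => hSf.mem_toFinset.2 (hstab τ z (hSf.mem_toFinset.1 hz)))
      (le_of_eq (Finset.card_image_of_injective _ τ.injective).symm)
    simp only [P, Polynomial.map_prod, Polynomial.map_sub, Polynomial.map_X, Polynomial.map_C]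
    conv_rhs => rw [← himg, Finset.prod_image fun a _ b _ h => τ.injective h]
    rfl
  obtain ⟨q, hq⟩ := (Polynomial.mem_lifts (f := algebraMap ℚ ℂ) P).1
    ((Polynomial.lifts_iff_coeff_lifts P).2 fun i => by
      obtain ⟨r, hr⟩ := FA.Period.exists_rat_of_forall_ringEquiv_fixed (P.coeff i) fun τ => by
        conv_rhs => rw [← hfix τ, Polynomial.coeff_map]
        rfl
      exact ⟨r, by rw [hr, eq_ratCast]⟩)
  have hroots : q.rootSet ℂ = S := by
    rw [Polynomial.rootSet, Polynomial.aroots, hq]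
    simp [P, Polynomial.roots_prod_X_sub_C]
  have hsplit : (q.map (algebraMap ℚ ℂ)).Splits := IsAlgClosed.splits _
  let F : IntermediateField ℚ ℂ := IntermediateField.adjoin ℚ (q.rootSet ℂ)
  haveI hSF : q.IsSplittingField ℚ F := IntermediateField.adjoin_rootSet_isSplittingField hsplit
  haveI : FiniteDimensional ℚ F := Polynomial.IsSplittingField.finiteDimensional F q
  haveI : Normal ℚ F := Normal.of_isSplittingField q
  haveI : IsGalois ℚ F := ⟨⟩
  have hP : IsPGroup 2 (F ≃ₐ[ℚ] F) := by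
    intro g
    obtain ⟨τ, hτ⟩ := FA.Weight1.exists_auto_extending F
      ((algebraMap F ℂ).comp (g : F →+* F))
    have hiter : ∀ (j : ℕ) (x : F), τ^[j] (x : ℂ) = ((g ^ j) x : F) := by
      intro j x
      induction j with
      | zero => simp
      | succ j ih =>
        rw [Function.iterate_succ_apply', ih, hτ, pow_succ', AlgEquiv.mul_apply]
        rfl
    have hσ : (τ.trans τ) Complex.I = Complex.I := by
      rw [RingEquiv.trans_apply]
      rcases hI τ with e | e <;> simp [e]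
    obtain ⟨K, hK⟩ := exists_iterate_fix L h₂ h₃ hω hper hn hF (τ.trans τ) hσ
    have htwo : ∀ (j : ℕ) (w : ℂ), (τ.trans τ)^[j] w = τ^[2 * j] w := by
      intro j w
      rw [Function.iterate_mul]
      rfl
    refine ⟨K + 1, AlgEquiv.ext fun x => Subtype.ext ?_⟩
    rw [← hiter, pow_succ', ← htwo, AlgEquiv.one_apply]
    obtain ⟨w, hw⟩ := x
    show (τ.trans τ)^[2 ^ K] w = w
    induction hw using IntermediateField.adjoin_induction with
    | mem z hz =>
      rw [hroots] at hz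
      simp only [S, Set.mem_union, Set.mem_insert_iff, Set.mem_singleton_iff] at hz
      rcases hz with (rfl | rfl) | ⟨_, ⟨γ, rfl⟩, rfl⟩ | ⟨_, ⟨γ, rfl⟩, rfl⟩
      · exact Function.iterate_fixed hσ _
      · exact Function.iterate_fixed (by rw [map_neg, hσ]) _
      · exact (hK γ).1
      · exact (hK γ).2
    | algebraMap r =>
      exact Function.iterate_fixed (by rw [eq_ratCast, map_ratCast]) _
    | add a b _ _ ha hb => rw [iterate_map_add, ha, hb]
    | inv a _ ha =>
      have e : ∀ i, (τ.trans τ)^[i] a⁻¹ = ((τ.trans τ)^[i] a)⁻¹ := fun i => by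
        induction i with
        | zero => rfl
        | succ i ih =>
          rw [Function.iterate_succ_apply', Function.iterate_succ_apply', ih, map_inv₀]
      rw [e, ha]
    | mul a b _ _ ha hb => rw [iterate_map_mul, ha, hb]
  have hin : ∀ z ∈ S, z ∈ constructibleField := fun z hz =>
    mem_constructibleField_of_isPGroup F hP
      (IntermediateField.subset_adjoin ℚ _ (hroots.symm ▸ hz))
  exact ⟨hin _ (Or.inr (Or.inl ⟨_, ⟨β, rfl⟩, rfl⟩)), hin _ (Or.inr (Or.inr ⟨_, ⟨β, rfl⟩, rfl⟩))⟩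

omit [(latCurve L).IsElliptic] in
include h₃ in
/-- There `℘'(i z) = i ℘'(z)`. -/
theorem wq_I_mul (z : ℂ) :
    L.derivWeierstrassP (Complex.I * z) = Complex.I * L.derivWeierstrassP z := by
  by_cases hz : z ∈ L.lattice
  · rw [show L.derivWeierstrassP z = 0 from L.derivWeierstrassP_coe ⟨z, hz⟩,
      show L.derivWeierstrassP (Complex.I * z) = 0 from
        L.derivWeierstrassP_coe ⟨_, FA.RealPoints.I_mul_mem L h₃ hz⟩, mul_zero]
  have hiz : Complex.I * z ∉ L.lattice := fun h => hz (by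
    have := neg_mem (FA.RealPoints.I_mul_mem L h₃ h)
    simpa [← mul_assoc, Complex.I_mul_I] using this)
  have h1 := (hasDerivAt_wp L hiz).comp z ((hasDerivAt_id z).const_mul Complex.I)
  have h2 := (hasDerivAt_wp L hz).neg
  have h3' := h1.unique (h2.congr_of_eventuallyEq (Filter.Eventually.of_forall fun y =>
    (FA.RealPoints.wp_I_mul L h₃ y)))
  linear_combination (-Complex.I) * h3' + L.derivWeierstrassP (Complex.I * z) * Complex.I_mul_I

include h₂ h₃ hω hper in
/-- **One constructible primitive division point makes `n` a Fermat product.** -/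
theorem isFermatProduct_of_mem_constructibleField {n : ℕ} (hn : 0 < n)
    (hc : xP (torsPt L ω n 1) ∈ constructibleField) : IsFermatProduct n := by
  classical
  have hy : yP (torsPt L ω n 1) ∈ constructibleField := by
    rcases hQ : torsPt L ω n 1 with _ | ⟨x, y, hxy⟩
    · exact zero_mem _
    rw [hQ] at hc
    refine mem_constructibleField_of_sq ?_
    have he := hxy.1
    rw [Affine.equation_iff] at he
    simp only [latCurve, h₂, h₃] at he
    show y ^ 2 ∈ constructibleField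
    have := sub_mem (pow_mem hc 3) hc
    convert this using 1
    show y ^ 2 = x ^ 3 - x
    linear_combination he
  -- the curve over the constructible numbers
  let C : WeierstrassCurve constructibleField := ⟨0, 0, 0, -1, 0⟩
  have hC : C.map (algebraMap constructibleField ℂ) = latCurve L := by
    ext <;> simp [C, latCurve, h₂, h₃]
  let ιC := mapPt (algebraMap constructibleField ℂ) hC
  have hback : ∀ Q, xP Q ∈ constructibleField → yP Q ∈ constructibleField → Q ∈ ιC.range := by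
    rintro (_ | ⟨x, y, hxy⟩) hx hy
    · exact zero_mem _
    · have h' : (C.map (algebraMap constructibleField ℂ)).toAffine.Nonsingular x y := by
        rw [hC]; exact hxy
      exact ⟨.some (⟨x, hx⟩ : constructibleField) ⟨y, hy⟩
        ((C.toAffine.map_nonsingular (f := algebraMap constructibleField ℂ)
          (algebraMap constructibleField ℂ).injective _ _).1 h'), rfl⟩
  have hi : torsPt L ω n Zsqrtd.sqrtd ∈ ιC.range := by
    have e : torsPt L ω n Zsqrtd.sqrtd = unif L (Complex.I * ((1 : GaussianInt) * ω / n)) := by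
      rw [torsPt, GaussianInt.toComplex_def', GaussianInt.toComplex_one]
      congr 1
      simp
      ring
    refine hback _ ?_ ?_
    · rw [e, xP_unif, FA.RealPoints.wp_I_mul L h₃, ← xP_unif]
      exact neg_mem hc
    · rw [e, yP_unif, wq_I_mul L h₃, mul_div_assoc, ← yP_unif]
      exact mul_mem I_mem_constructibleField hy
  have hall : ∀ β, torsPt L ω n β ∈ ιC.range := fun β => by
    have e : β = (β.re : GaussianInt) * 1 + (β.im : GaussianInt) * Zsqrtd.sqrtd := by
      ext <;> simp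
    rw [e, torsPt_add, torsPt_zsmul, torsPt_zsmul]
    exact add_mem (zsmul_mem (hback _ hc hy) _) (zsmul_mem hi _)
  -- the roots of unity
  let E : WeierstrassCurve ℚ := ⟨0, 0, 0, -1, 0⟩
  haveI : E.IsElliptic := ⟨by
    rw [isUnit_iff_ne_zero]
    norm_num [E, WeierstrassCurve.Δ, b₂, b₄, b₆, b₈]⟩
  let j : Qb →ₐ[ℚ] ℂ := IsAlgClosed.lift
  have hE : (E⁄Qb).map (j : Qb →+* ℂ) = latCurve L := by
    ext <;> simp [E, latCurve, h₂, h₃]
  let ι := mapPt (j : Qb →+* ℂ) hE
  haveI : NeZero (n : Qb) := ⟨Nat.cast_ne_zero.2 hn.ne'⟩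
  obtain ⟨μ, hμ⟩ := HasEnoughRootsOfUnity.exists_primitiveRoot Qb n
  have hμ' := FA.Summary.rootsOfUnity_of_full_torsion E hn.ne' (constructibleField.comap j)
    (fun σ hσ P hP => ?_) hμ.pow_eq_one
  · exact (primitiveRoot_mem_iff hn (hμ.map_of_injective j.injective)).1 hμ'
  · obtain ⟨z, hz⟩ := unif_surjective L (ι P)
    have h1 : n • ι P = 0 := by rw [← map_nsmul, hP, map_zero]
    rw [← hz, ← unifHom_apply, ← map_nsmul, unifHom_apply, unif_eq_zero_iff, nsmul_eq_mul,
      mem_lattice_gauss L h₂ h₃ hω hper] at h1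
    obtain ⟨β, hβ⟩ := h1
    have hP' : ι P = torsPt L ω n β := by
      rw [← hz, torsPt, ← hβ, mul_div_cancel_left₀ _ (Nat.cast_ne_zero.2 hn.ne')]
    obtain ⟨R, hR⟩ := hall β
    rcases P with _ | ⟨x, y, hxy⟩
    · rfl
    rcases R with _ | ⟨u, v, huv⟩
    · exact absurd (hP'.trans hR.symm) (Affine.Point.some_ne_zero _)
    have h2 := hP'.trans hR.symm
    have hx : x ∈ constructibleField.comap j := by
      show j x ∈ constructibleField
      have : j x = u := congrArg xP h2
      rw [this]; exact u.2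
    have hy' : y ∈ constructibleField.comap j := by
      show j y ∈ constructibleField
      have : j y = v := congrArg yP h2
      rw [this]; exact v.2
    show Affine.Point.some _ _ _ = Affine.Point.some _ _ _
    simp only [Affine.Point.some.injEq]
    exact ⟨hσ ⟨x, hx⟩, hσ ⟨y, hy'⟩⟩

end FA.LemniscateDivision

end
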